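import Mathlib

/-!
# S55 / layer KL, leaf KL-TR (helper496), part 1: the compositum `E·E'` over `E`

`Ω/K` Galois, `E` any intermediate field, `E'/K` finite Galois.  Then `M = E ⊔ E'`, viewed as an
intermediate field of `Ω/E`, is finite Galois over `E`.
-/

set_option autoImplicit false

noncomputable section

namespace Fermat.Agent.S55.KL.H496

open IntermediateField Polynomial

variable {K Ω : Type} [Field K] [Field Ω] [Algebra K Ω]

/-- The compositum `E ⊔ E'` as an intermediate field of `Ω/E` (same as `KL.compositumOver`). -/
abbrev comp496 (E E' : IntermediateField K Ω) : IntermediateField ↥E Ω :=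
  IntermediateField.extendScalars (le_sup_left : E ≤ E ⊔ E')

theorem exists_splitting_comp496 (E E' : IntermediateField K Ω) [FiniteDimensional K E']
    [IsGalois K E'] :
    ∃ T : (↥E)[X], T.Separable ∧ T.IsSplittingField ↥E ↥(comp496 E E') := by
  obtain ⟨T, hT₁, hT₂⟩ := IsGalois.is_separable_splitting_field K E'
  refine ⟨T.map (algebraMap K E), hT₁.map, ?_⟩
  rw [IntermediateField.isSplittingField_iff] at hT₂ ⊢
  have hroot : (T.map (algebraMap K E)).rootSet Ω = T.rootSet Ω := by
    ext x
    simp [Polynomial.mem_rootSet', Polynomial.map_map, ← IsScalarTower.algebraMap_eq]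
  constructor
  · rw [Polynomial.map_map, ← IsScalarTower.algebraMap_eq]
    have hle : E' ≤ E ⊔ E' := le_sup_right
    exact Polynomial.Splits.of_algHom hT₂.1 (IntermediateField.inclusion hle)
  · apply restrictScalars_injective K
    rw [restrictScalars_adjoin, adjoin_union, adjoin_self, hroot, ← hT₂.2]
    rfl

theorem isGalois_comp496 (E E' : IntermediateField K Ω) [FiniteDimensional K E']
    [IsGalois K E'] : IsGalois ↥E ↥(comp496 E E') := by
  obtain ⟨T, hT₁, hT₂⟩ := exists_splitting_comp496 E E'
  exact IsGalois.of_separable_splitting_field hT₁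

theorem finiteDimensional_comp496 (E E' : IntermediateField K Ω) [FiniteDimensional K E']
    [IsGalois K E'] : FiniteDimensional ↥E ↥(comp496 E E') := by
  obtain ⟨T, hT₁, hT₂⟩ := exists_splitting_comp496 E E'
  exact Polynomial.IsSplittingField.finiteDimensional _ T

end Fermat.Agent.S55.KL.H496
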