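import Fermat.Agent.S55.KL.H496.TrGalois

/-!
# S55 / layer KL, leaf KL-TR (helper496), part 2: `U/(V ∩ U) ≃* Gal(M/E)`

`U = Gal(Ω/E)`, `V = Gal(Ω/E')`, `M = E·E'`.
-/

set_option autoImplicit false

noncomputable section

namespace Fermat.Agent.S55.KL.H496

open IntermediateField Polynomial

variable {K Ω : Type} [Field K] [Field Ω] [Algebra K Ω] [IsGalois K Ω]
variable (E E' : IntermediateField K Ω) [FiniteDimensional K E'] [IsGalois K E']

instance normal_comp496 : Normal ↥E ↥(comp496 E E') :=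
  (isGalois_comp496 E E').to_normal

/-- Restriction `Gal(Ω/E) = U → Gal(M/E)`. -/
def resHom496 : ↥E.fixingSubgroup →* (↥(comp496 E E') ≃ₐ[↥E] ↥(comp496 E E')) :=
  (AlgEquiv.restrictNormalHom (F := ↥E) (K₁ := Ω) ↥(comp496 E E')).comp
    (IntermediateField.fixingSubgroupEquiv E).toMonoidHom

omit [IsGalois K Ω] in
theorem resHom496_apply (u : ↥E.fixingSubgroup) (x : ↥(comp496 E E')) :
    ((resHom496 E E' u x : ↥(comp496 E E')) : Ω) = (u : Ω ≃ₐ[K] Ω) (x : Ω) := by
  have := AlgEquiv.restrictNormalHom_apply (F := ↥E) (K₁ := Ω) (comp496 E E')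
    (IntermediateField.fixingSubgroupEquiv E u) x
  exact this

theorem resHom496_surjective : Function.Surjective (resHom496 E E') := by
  intro σ
  obtain ⟨τ, hτ⟩ := AlgEquiv.restrictNormalHom_surjective (F := ↥E) (K₁ := ↥(comp496 E E')) Ω σ
  obtain ⟨u, rfl⟩ := (IntermediateField.fixingSubgroupEquiv E).surjective τ
  exact ⟨u, hτ⟩

omit [IsGalois K Ω] in
theorem resHom496_ker :
    (resHom496 E E').ker = (E'.fixingSubgroup).subgroupOf E.fixingSubgroup := by
  ext u
  rw [MonoidHom.mem_ker, Subgroup.mem_subgroupOf, IntermediateField.mem_fixingSubgroup_iff]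
  constructor
  · intro h x hx
    have hx' : x ∈ comp496 E E' := (le_sup_right : E' ≤ E ⊔ E') hx
    have := resHom496_apply E E' u ⟨x, hx'⟩
    rw [h] at this
    exact this.symm
  · intro h
    ext ⟨x, hx⟩
    rw [resHom496_apply]
    show (u : Ω ≃ₐ[K] Ω) x = x
    have hu : (u : Ω ≃ₐ[K] Ω) ∈ (E ⊔ E').fixingSubgroup := by
      rw [IntermediateField.fixingSubgroup_sup]
      exact ⟨u.2, (IntermediateField.mem_fixingSubgroup_iff _ _).2 h⟩
    exact (IntermediateField.mem_fixingSubgroup_iff _ _).1 hu x hx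

/-- `U/(V ∩ U) ≃* Gal(M/E)`. -/
def quotEquiv496 :
    (↥E.fixingSubgroup ⧸ (E'.fixingSubgroup).subgroupOf E.fixingSubgroup) ≃*
      (↥(comp496 E E') ≃ₐ[↥E] ↥(comp496 E E')) :=
  (QuotientGroup.quotientMulEquivOfEq (resHom496_ker E E').symm).trans
    (QuotientGroup.quotientKerEquivOfSurjective (resHom496 E E') (resHom496_surjective E E'))

theorem quotEquiv496_mk (u : ↥E.fixingSubgroup) :
    quotEquiv496 E E' (QuotientGroup.mk u) = resHom496 E E' u := rfl

theorem card_quot496 :
    Nat.card (↥E.fixingSubgroup ⧸ (E'.fixingSubgroup).subgroupOf E.fixingSubgroup) =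
      Module.finrank ↥E ↥(comp496 E E') := by
  have h1 := isGalois_comp496 E E'
  have h2 := finiteDimensional_comp496 E E'
  rw [Nat.card_congr (quotEquiv496 E E').toEquiv, IsGalois.card_aut_eq_finrank]

end Fermat.Agent.S55.KL.H496
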