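import Fermat.Agent.S55.KL.H496.TrGroup
import Fermat.Agent.S55.KL.SpecLocal

/-!
# S55 / layer KL, leaf KL-TR (helper496), part 3: `(Ωˣ)^{V ∩ U} ≃ Mˣ` and the transport

`U = Gal(Ω/E)`, `V = Gal(Ω/E')`, `M = E·E'`.
-/

set_option autoImplicit false

noncomputable section

namespace Fermat.Agent.S55.KL.H496

open IntermediateField Polynomial CategoryTheory groupCohomology

variable {K Ω : Type} [Field K] [Field Ω] [Algebra K Ω] [IsGalois K Ω]
variable (E E' : IntermediateField K Ω) [FiniteDimensional K E'] [IsGalois K E']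

/-- The source representation: `(Ωˣ)^{V ∩ U}` as a `U/(V ∩ U)`-module. -/
abbrev srcRep496 : Rep.{0} ℤ (↥E.fixingSubgroup ⧸ (E'.fixingSubgroup).subgroupOf E.fixingSubgroup) :=
  (Rep.res E.fixingSubgroup.subtype (unitsOm K Ω)).quotientToInvariants
    ((E'.fixingSubgroup).subgroupOf E.fixingSubgroup)

/-- The target representation: `Mˣ` as a `Gal(M/E)`-module. -/
abbrev tgtRep496 : Rep.{0} ℤ (↥(comp496 E E') ≃ₐ[↥E] ↥(comp496 E E')) :=
  Rep.ofAlgebraAutOnUnits ↥E ↥(comp496 E E')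

/-- Elements of `M` are fixed by `V ∩ U`. -/
theorem fixed_of_mem_comp496 (x : Ω) (hx : x ∈ comp496 E E') (w : Ω ≃ₐ[K] Ω)
    (hwU : w ∈ E.fixingSubgroup) (hwV : w ∈ E'.fixingSubgroup) : w x = x := by
  have hw : w ∈ (E ⊔ E').fixingSubgroup := by
    rw [IntermediateField.fixingSubgroup_sup]
    exact ⟨hwU, hwV⟩
  exact (IntermediateField.mem_fixingSubgroup_iff _ _).1 hw x hx

/-- Elements of `Ω` fixed by `V ∩ U` lie in `M`. -/
theorem mem_comp496_of_fixed (x : Ω)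
    (hx : ∀ w : Ω ≃ₐ[K] Ω, w ∈ E.fixingSubgroup → w ∈ E'.fixingSubgroup → w x = x) :
    x ∈ comp496 E E' := by
  show x ∈ E ⊔ E'
  rw [← InfiniteGalois.fixedField_fixingSubgroup (E ⊔ E'),
    IntermediateField.mem_fixedField_iff]
  intro w hw
  rw [IntermediateField.fixingSubgroup_sup] at hw
  exact hx w hw.1 hw.2

/-- The underlying unit of `Ω` of an element of the module `Ωˣ`. -/
def srcUnit496 (x : (Rep.res E.fixingSubgroup.subtype (unitsOm K Ω)).V) : Ωˣ :=
  Additive.toMul (show Additive Ωˣ from x)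

/-- The underlying unit of `M` of an element of the module `Mˣ`. -/
def tgtUnit496 (y : (tgtRep496 E E').V) : (↥(comp496 E E'))ˣ :=
  Additive.toMul (show Additive (↥(comp496 E E'))ˣ from y)

/-- The inclusion `Mˣ → Ωˣ`, linear. -/
def unitsInclLin496 :
    (tgtRep496 E E').V →ₗ[ℤ] (Rep.res E.fixingSubgroup.subtype (unitsOm K Ω)).V :=
  (MonoidHom.toAdditive
    (Units.map (algebraMap ↥(comp496 E E') Ω : ↥(comp496 E E') →* Ω))).toIntLinearMap

theorem srcUnit496_unitsInclLin496 (y : (tgtRep496 E E').V) :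
    ((srcUnit496 E (unitsInclLin496 E E' y) : Ωˣ) : Ω) = ((tgtUnit496 E E' y : _) : Ω) := rfl

theorem srcUnit496_ρ (u : ↥E.fixingSubgroup)
    (x : (Rep.res E.fixingSubgroup.subtype (unitsOm K Ω)).V) :
    ((srcUnit496 E ((Rep.res E.fixingSubgroup.subtype (unitsOm K Ω)).ρ u x) : Ωˣ) : Ω) =
      (u : Ω ≃ₐ[K] Ω) ((srcUnit496 E x : Ωˣ) : Ω) := rfl

theorem srcUnit496_injective (x x' : (Rep.res E.fixingSubgroup.subtype (unitsOm K Ω)).V)
    (h : ((srcUnit496 E x : Ωˣ) : Ω) = ((srcUnit496 E x' : Ωˣ) : Ω)) : x = x' :=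
  Additive.toMul.injective (Units.ext h)

theorem tgtUnit496_injective (y y' : (tgtRep496 E E').V)
    (h : ((tgtUnit496 E E' y : _) : Ω) = ((tgtUnit496 E E' y' : _) : Ω)) : y = y' :=
  Additive.toMul.injective (Units.ext (Subtype.ext h))

theorem unitsInclLin496_mem (y : (tgtRep496 E E').V) :
    unitsInclLin496 E E' y ∈ Representation.invariants
      ((Rep.res E.fixingSubgroup.subtype (unitsOm K Ω)).ρ.comp
        ((E'.fixingSubgroup).subgroupOf E.fixingSubgroup).subtype) := by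
  rintro ⟨⟨w, hwU⟩, hwV⟩
  apply srcUnit496_injective
  show (w : Ω ≃ₐ[K] Ω) ((srcUnit496 E (unitsInclLin496 E E' y) : Ωˣ) : Ω) = _
  exact fixed_of_mem_comp496 E E' _ (SetLike.coe_mem _) w hwU hwV

/-- The inclusion `Mˣ → (Ωˣ)^{V ∩ U}`. -/
def unitsIncl496 : (tgtRep496 E E').V →ₗ[ℤ] (srcRep496 E E').V :=
  LinearMap.codRestrict _ (unitsInclLin496 E E') (unitsInclLin496_mem E E')

theorem coe_unitsIncl496 (y : (tgtRep496 E E').V) :
    ((unitsIncl496 E E' y : _) : (Rep.res E.fixingSubgroup.subtype (unitsOm K Ω)).V) =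
      unitsInclLin496 E E' y := rfl

theorem unitsIncl496_bijective : Function.Bijective (unitsIncl496 E E') := by
  constructor
  · intro y z h
    apply tgtUnit496_injective
    have h1 := congrArg (fun t : (srcRep496 E E').V =>
      ((srcUnit496 E (t : (Rep.res E.fixingSubgroup.subtype (unitsOm K Ω)).V) : Ωˣ) : Ω)) h
    exact h1
  · rintro ⟨x, hx⟩
    have hfix : ∀ (t : Ωˣ), (∀ w : Ω ≃ₐ[K] Ω, w ∈ E.fixingSubgroup → w ∈ E'.fixingSubgroup →
        w (t : Ω) = t) → (t : Ω) ∈ comp496 E E' := fun t ht => mem_comp496_of_fixed E E' _ ht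
    have hx' : ∀ w : Ω ≃ₐ[K] Ω, w ∈ E.fixingSubgroup → w ∈ E'.fixingSubgroup →
        w ((srcUnit496 E x : Ωˣ) : Ω) = (srcUnit496 E x : Ωˣ) := by
      intro w hwU hwV
      have := hx ⟨⟨w, hwU⟩, hwV⟩
      exact congrArg (fun t => ((srcUnit496 E t : Ωˣ) : Ω)) this
    have hxinv : ∀ w : Ω ≃ₐ[K] Ω, w ∈ E.fixingSubgroup → w ∈ E'.fixingSubgroup →
        w (((srcUnit496 E x)⁻¹ : Ωˣ) : Ω) = ((srcUnit496 E x)⁻¹ : Ωˣ) := by
      intro w hwU hwV
      rw [Units.val_inv_eq_inv_val, map_inv₀, hx' w hwU hwV]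
    have h1 := hfix _ hx'
    have h2 := hfix _ hxinv
    let yu : (↥(comp496 E E'))ˣ :=
      ⟨⟨_, h1⟩, ⟨_, h2⟩, Subtype.ext (Units.mul_inv _), Subtype.ext (Units.inv_mul _)⟩
    refine ⟨(Additive.ofMul yu : Additive (↥(comp496 E E'))ˣ), ?_⟩
    apply Subtype.ext
    apply srcUnit496_injective
    rfl

/-- `(Ωˣ)^{V ∩ U} ≃ Mˣ`. -/
def unitsEquiv496 : (srcRep496 E E').V ≃ₗ[ℤ] (tgtRep496 E E').V :=
  (LinearEquiv.ofBijective (unitsIncl496 E E') (unitsIncl496_bijective E E')).symm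

theorem tgtUnit496_ρ (σ : ↥(comp496 E E') ≃ₐ[↥E] ↥(comp496 E E')) (y : (tgtRep496 E E').V) :
    (tgtUnit496 E E' ((tgtRep496 E E').ρ σ y) : ↥(comp496 E E')) =
      σ (tgtUnit496 E E' y : ↥(comp496 E E')) := rfl

theorem unitsIncl496_equivariant (u : ↥E.fixingSubgroup) (y : (tgtRep496 E E').V) :
    unitsIncl496 E E' ((tgtRep496 E E').ρ (resHom496 E E' u) y) =
      (srcRep496 E E').ρ (QuotientGroup.mk u) (unitsIncl496 E E' y) := by
  apply Subtype.ext
  apply srcUnit496_injective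
  show ((tgtUnit496 E E' ((tgtRep496 E E').ρ (resHom496 E E' u) y) : _) : Ω) =
    (u : Ω ≃ₐ[K] Ω) ((tgtUnit496 E E' y : _) : Ω)
  rw [tgtUnit496_ρ]
  exact resHom496_apply E E' u _

theorem unitsEquiv496_equivariant
    (g : ↥E.fixingSubgroup ⧸ (E'.fixingSubgroup).subgroupOf E.fixingSubgroup) :
    (unitsEquiv496 E E').toLinearMap ∘ₗ (srcRep496 E E').ρ g =
      (tgtRep496 E E').ρ (quotEquiv496 E E' g) ∘ₗ (unitsEquiv496 E E').toLinearMap := by
  induction g using QuotientGroup.induction_on with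
  | H u =>
    refine LinearMap.ext fun b => ?_
    obtain ⟨y, rfl⟩ := (unitsIncl496_bijective E E').2 b
    have h1 : ∀ z, unitsEquiv496 E E' (unitsIncl496 E E' z) = z := fun z =>
      (LinearEquiv.ofBijective (unitsIncl496 E E') (unitsIncl496_bijective E E')).symm_apply_apply z
    show unitsEquiv496 E E' ((srcRep496 E E').ρ (QuotientGroup.mk u) (unitsIncl496 E E' y)) =
      (tgtRep496 E E').ρ (quotEquiv496 E E' (QuotientGroup.mk u))
        (unitsEquiv496 E E' (unitsIncl496 E E' y))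
    rw [h1, quotEquiv496_mk, ← unitsIncl496_equivariant, h1]

/-- The transport isomorphism `Hⁿ(U/(V ∩ U), (Ωˣ)^{V ∩ U}) ≅ Hⁿ(Gal(M/E), Mˣ)`. -/
def transportIso496 (n : ℕ) :
    groupCohomology (srcRep496 E E') n ≅ groupCohomology (tgtRep496 E E') n :=
  groupCohomology.mapIso (quotEquiv496 E E') (unitsEquiv496 E E')
    (unitsEquiv496_equivariant E E') n

end Fermat.Agent.S55.KL.H496
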